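/-
S24 / local differential calculus, part 1 (helper21): abstract Taylor expansion.

`A` is a commutative `K`-algebra (a domain) and `t : A` an element such that
* every `f : A` is `c + t * g` with `c : K` (residue field `K`, maximal ideal `(t)`),
* a constant divisible by `t` is zero,
* `⋂ (t ^ n) = 0`.
Then there is an injective `K`-algebra homomorphism `taylor : A →ₐ[K] K⟦X⟧` with `taylor t = X`
and `t ^ n ∣ f ↔ X ^ n ∣ taylor f`.
-/
import Mathlib

set_option autoImplicit false

open PowerSeries Polynomial

namespace Fermat.Agent.S24.LocalDiff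

section Abstract

variable {K A : Type*} [Field K] [CommRing A] [IsDomain A] [Algebra K A]

/-- `P` is a Taylor expansion of `f` in the parameter `t`. -/
def IsTaylor (t f : A) (P : K⟦X⟧) : Prop :=
  ∀ n : ℕ, t ^ n ∣ f - Polynomial.aeval t (trunc n P)

variable {t : A}

theorem isTaylor_algebraMap (c : K) : IsTaylor t (algebraMap K A c) (PowerSeries.C c) := by
  intro n
  cases n with
  | zero => simp
  | succ n =>
    rw [trunc_C, Polynomial.aeval_C, sub_self]
    exact dvd_zero _

theorem isTaylor_self : IsTaylor (K := K) t t PowerSeries.X := by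
  intro n
  match n with
  | 0 => simp
  | 1 =>
    rw [trunc_one_X, map_zero, sub_zero, pow_one]
  | n + 2 =>
    rw [trunc_X, Polynomial.aeval_X, sub_self]
    exact dvd_zero _

theorem IsTaylor.add {f g : A} {P Q : K⟦X⟧} (hf : IsTaylor t f P) (hg : IsTaylor t g Q) :
    IsTaylor t (f + g) (P + Q) := by
  intro n
  have h : f + g - Polynomial.aeval t (trunc n (P + Q))
      = (f - Polynomial.aeval t (trunc n P)) + (g - Polynomial.aeval t (trunc n Q)) := by
    rw [map_add, map_add]; ring
  rw [h]
  exact dvd_add (hf n) (hg n)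

/-- For a polynomial `u`, `X ^ n` divides `u - trunc n u`. -/
theorem X_pow_dvd_sub_trunc (u : K[X]) (n : ℕ) :
    (Polynomial.X : K[X]) ^ n ∣ u - trunc n (u : K⟦X⟧) := by
  rw [Polynomial.X_pow_dvd_iff]
  intro d hd
  rw [Polynomial.coeff_sub, coeff_trunc, if_pos hd, Polynomial.coeff_coe, sub_self]

theorem IsTaylor.mul {f g : A} {P Q : K⟦X⟧} (hf : IsTaylor t f P) (hg : IsTaylor t g Q) :
    IsTaylor t (f * g) (P * Q) := by
  intro n
  set p := trunc n P
  set q := trunc n Q
  have h1 : t ^ n ∣ f * g - Polynomial.aeval t p * Polynomial.aeval t q := by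
    have : f * g - Polynomial.aeval t p * Polynomial.aeval t q
        = (f - Polynomial.aeval t p) * g + Polynomial.aeval t p * (g - Polynomial.aeval t q) := by
      ring
    rw [this]
    exact dvd_add (Dvd.dvd.mul_right (hf n) _) (Dvd.dvd.mul_left (hg n) _)
  have h2 : (Polynomial.X : K[X]) ^ n ∣ p * q - trunc n (P * Q) := by
    have := X_pow_dvd_sub_trunc (p * q) n
    rwa [Polynomial.coe_mul, trunc_trunc_mul_trunc] at this
  have h3 : t ^ n ∣ Polynomial.aeval t p * Polynomial.aeval t q
      - Polynomial.aeval t (trunc n (P * Q)) := by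
    have := map_dvd (Polynomial.aeval (R := K) t) h2
    rwa [map_pow, Polynomial.aeval_X, map_sub, map_mul] at this
  have : f * g - Polynomial.aeval t (trunc n (P * Q))
      = (f * g - Polynomial.aeval t p * Polynomial.aeval t q)
        + (Polynomial.aeval t p * Polynomial.aeval t q
          - Polynomial.aeval t (trunc n (P * Q))) := by ring
  rw [this]
  exact dvd_add h1 h3

/-- Uniqueness of Taylor expansions. -/
theorem IsTaylor.unique (ht : t ≠ 0)
    (hconst : ∀ c : K, t ∣ algebraMap K A c → c = 0)
    {f : A} {P Q : K⟦X⟧} (hP : IsTaylor t f P) (hQ : IsTaylor t f Q) : P = Q := by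
  ext n
  induction n using Nat.strong_induction_on with
  | _ n ih =>
    have hdiff : trunc (n + 1) P - trunc (n + 1) Q
        = Polynomial.monomial n (coeff n P - coeff n Q) := by
      ext d
      rw [Polynomial.coeff_sub, coeff_trunc, coeff_trunc, Polynomial.coeff_monomial]
      by_cases hd : d < n + 1
      · rw [if_pos hd, if_pos hd]
        rcases Nat.lt_succ_iff_lt_or_eq.mp hd with h | h
        · rw [ih d h, sub_self, if_neg (by omega)]
        · rw [h, if_pos rfl]
      · rw [if_neg hd, if_neg hd, sub_self, if_neg (by omega)]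
    have hdvd : t ^ (n + 1) ∣ Polynomial.aeval t (trunc (n + 1) P - trunc (n + 1) Q) := by
      have := dvd_sub (hQ (n + 1)) (hP (n + 1))
      have e : (f - Polynomial.aeval t (trunc (n + 1) Q))
          - (f - Polynomial.aeval t (trunc (n + 1) P))
          = Polynomial.aeval t (trunc (n + 1) P - trunc (n + 1) Q) := by
        rw [map_sub]; ring
      rwa [e] at this
    rw [hdiff, Polynomial.aeval_monomial, pow_succ, mul_comm (algebraMap K A _)] at hdvd
    have h2 : t ∣ algebraMap K A (coeff n P - coeff n Q) :=
      (mul_dvd_mul_iff_left (pow_ne_zero n ht)).mp hdvd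
    exact sub_eq_zero.mp (hconst _ h2)

/-- Existence of Taylor expansions. -/
theorem exists_isTaylor (hres : ∀ f : A, ∃ c : K, ∃ g : A, f = algebraMap K A c + t * g)
    (f : A) : ∃ P : K⟦X⟧, IsTaylor t f P := by
  choose c0 sh hsh using hres
  refine ⟨PowerSeries.mk fun n => c0 (sh^[n] f), ?_⟩
  have key : ∀ n : ℕ, f = Polynomial.aeval t (trunc n (PowerSeries.mk fun n => c0 (sh^[n] f)))
      + t ^ n * sh^[n] f := by
    intro n
    induction n with
    | zero => simp
    | succ n ih =>
      rw [trunc_succ, map_add, Polynomial.aeval_monomial, coeff_mk, Function.iterate_succ_apply']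
      conv_lhs => rw [ih, hsh (sh^[n] f)]
      ring
  intro n
  exact ⟨sh^[n] f, sub_eq_iff_eq_add'.mpr (key n)⟩

/-- The hypotheses making `t`-adic Taylor expansion a well defined injective algebra map. -/
structure TaylorData (K : Type*) {A : Type*} [Field K] [CommRing A] [IsDomain A] [Algebra K A]
    (t : A) : Prop where
  ne_zero : t ≠ 0
  const : ∀ c : K, t ∣ algebraMap K A c → c = 0
  res : ∀ f : A, ∃ c : K, ∃ g : A, f = algebraMap K A c + t * g
  krull : ∀ f : A, (∀ n : ℕ, t ^ n ∣ f) → f = 0

namespace TaylorData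

variable (h : TaylorData K t)

/-- The Taylor expansion as a function. -/
noncomputable def taylorFun (f : A) : K⟦X⟧ := (exists_isTaylor h.res f).choose

theorem isTaylor_taylorFun (f : A) : IsTaylor t f (h.taylorFun f) :=
  (exists_isTaylor h.res f).choose_spec

theorem taylorFun_eq {f : A} {P : K⟦X⟧} (hP : IsTaylor t f P) : h.taylorFun f = P :=
  IsTaylor.unique h.ne_zero h.const (h.isTaylor_taylorFun f) hP

/-- The Taylor expansion as a `K`-algebra homomorphism `A →ₐ[K] K⟦X⟧`. -/
noncomputable def taylor : A →ₐ[K] K⟦X⟧ where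
  toFun := h.taylorFun
  map_one' := by
    have := h.taylorFun_eq (isTaylor_algebraMap (t := t) (1 : K))
    simpa using this
  map_mul' f g := h.taylorFun_eq ((h.isTaylor_taylorFun f).mul (h.isTaylor_taylorFun g))
  map_zero' := by
    have := h.taylorFun_eq (isTaylor_algebraMap (t := t) (0 : K))
    simpa using this
  map_add' f g := h.taylorFun_eq ((h.isTaylor_taylorFun f).add (h.isTaylor_taylorFun g))
  commutes' c := h.taylorFun_eq (isTaylor_algebraMap c)

theorem isTaylor_taylor (f : A) : IsTaylor t f (h.taylor f) := h.isTaylor_taylorFun f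

theorem taylor_eq {f : A} {P : K⟦X⟧} (hP : IsTaylor t f P) : h.taylor f = P :=
  h.taylorFun_eq hP

@[simp]
theorem taylor_self : h.taylor t = PowerSeries.X := h.taylor_eq isTaylor_self

theorem X_pow_dvd_taylor_iff (f : A) (n : ℕ) :
    (PowerSeries.X : K⟦X⟧) ^ n ∣ h.taylor f ↔ t ^ n ∣ f := by
  constructor
  · intro hd
    have h0 : trunc n (h.taylor f) = 0 := by
      ext d
      rw [coeff_trunc, Polynomial.coeff_zero]
      split_ifs with hdn
      · exact (PowerSeries.X_pow_dvd_iff.mp hd) d hdn
      · rfl
    have := h.isTaylor_taylor f n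
    rwa [h0, map_zero, sub_zero] at this
  · rintro ⟨g, rfl⟩
    rw [map_mul, map_pow, taylor_self]
    exact dvd_mul_right _ _

theorem taylor_injective : Function.Injective h.taylor := by
  rw [injective_iff_map_eq_zero]
  intro f hf
  refine h.krull f fun n => ?_
  rw [← h.X_pow_dvd_taylor_iff, hf]
  exact dvd_zero _

theorem taylor_eq_zero_iff {f : A} : h.taylor f = 0 ↔ f = 0 :=
  map_eq_zero_iff _ h.taylor_injective

end TaylorData

end Abstract

end Fermat.Agent.S24.LocalDiff
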