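/-
S24 / local differential calculus, part 3 (helper21): the Taylor expansion is compatible with
differentiation.  `A` local domain with Taylor data at `t`, `F = Frac A`.  If `df = g • dt` in
`Ω[F⁄K]` with `f ∈ A`, then `g ∈ A` and `taylor g = d/dX (taylor f)`.
-/
import Mathlib
import Fermat.Agent.S24.LocalDiff.Taylor

set_option autoImplicit false

open KaehlerDifferential PowerSeries

namespace Fermat.Agent.S24.LocalDiff

variable {K A F : Type*} [Field K] [CommRing A] [IsDomain A] [Algebra K A]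
  [Field F] [Algebra K F] [Algebra A F] [IsScalarTower K A F] [IsFractionRing A F]
  {t : A}

namespace TaylorData

variable (h : TaylorData K t)

/-- `K⟦X⟧` as an `A`-algebra through the Taylor expansion. -/
@[reducible] noncomputable def algebraPS : Algebra A K⟦X⟧ := h.taylor.toRingHom.toAlgebra

theorem algebraMap_algebraPS (f : A) :
    (letI := h.algebraPS; algebraMap A K⟦X⟧ f) = h.taylor f := rfl

/-- The derivation `f ↦ d/dX (taylor f)`. -/
noncomputable def taylorDer :
    letI := h.algebraPS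
    Derivation K A K⟦X⟧ :=
  letI := h.algebraPS
  haveI : IsScalarTower K A K⟦X⟧ :=
    IsScalarTower.of_algebraMap_eq fun c => (h.taylor.commutes c).symm
  Derivation.compAlgebraMap A (PowerSeries.derivative K)

theorem taylorDer_apply (f : A) :
    (letI := h.algebraPS; h.taylorDer f) = PowerSeries.derivative K (h.taylor f) := rfl

/-- The linear form on `Ω[A⁄K]` induced by `taylorDer`. -/
noncomputable def taylorLift :
    letI := h.algebraPS
    Ω[A⁄K] →ₗ[A] K⟦X⟧ :=
  letI := h.algebraPS
  h.taylorDer.liftKaehlerDifferential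

theorem taylorLift_D (f : A) :
    (letI := h.algebraPS; h.taylorLift (D K A f)) = PowerSeries.derivative K (h.taylor f) := by
  letI := h.algebraPS
  exact Derivation.liftKaehlerDifferential_comp_D h.taylorDer f

theorem taylorLift_smul (a : A) (ω : Ω[A⁄K]) :
    (letI := h.algebraPS; h.taylorLift (a • ω)) = h.taylor a * (letI := h.algebraPS; h.taylorLift ω) := by
  letI := h.algebraPS
  rw [map_smul, Algebra.smul_def]
  rfl

/-- Key relation: if `s • df = a • dt` in `Ω[F⁄K]` (with `f, s, a ∈ A`), then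
`taylor s * (taylor f)' = taylor a`. -/
theorem taylor_mul_derivative_eq (f s a : A)
    (hrel : algebraMap A F s • D K F (algebraMap A F f)
      = algebraMap A F a • D K F (algebraMap A F t)) :
    h.taylor s * PowerSeries.derivative K (h.taylor f) = h.taylor a := by
  have hmap : KaehlerDifferential.map K K A F (s • D K A f - a • D K A t) = 0 := by
    rw [map_sub, map_smul, map_smul, KaehlerDifferential.map_D, KaehlerDifferential.map_D,
      ← algebraMap_smul F s, ← algebraMap_smul F a, hrel, sub_self]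
  obtain ⟨s', hs'⟩ := (IsLocalizedModule.eq_zero_iff (nonZeroDivisors A)
    (KaehlerDifferential.map K K A F)).mp hmap
  have hs'0 : (s' : A) ≠ 0 := nonZeroDivisors.coe_ne_zero s'
  letI := h.algebraPS
  have hL : h.taylorLift ((s' : A) • (s • D K A f - a • D K A t)) = h.taylorLift 0 :=
    congrArg h.taylorLift hs'
  rw [h.taylorLift_smul, map_zero, map_sub, h.taylorLift_smul, h.taylorLift_smul, h.taylorLift_D,
    h.taylorLift_D, taylor_self, PowerSeries.derivative_X, mul_one] at hL
  have hne : h.taylor (s' : A) ≠ 0 := fun h0 => hs'0 (h.taylor_eq_zero_iff.mp h0)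
  exact sub_eq_zero.mp ((mul_eq_zero.mp hL).resolve_left hne)

/-- `dt ≠ 0` in `Ω[F⁄K]`. -/
theorem D_algebraMap_ne_zero (h : TaylorData K t) : D K F (algebraMap A F t) ≠ 0 := by
  intro h0
  have := h.taylor_mul_derivative_eq (F := F) t 1 0 (by rw [h0, smul_zero, smul_zero])
  rw [map_one, map_zero, taylor_self, PowerSeries.derivative_X, mul_one] at this
  exact one_ne_zero this

theorem nontrivial_kaehler (h : TaylorData K t) : Nontrivial Ω[F⁄K] :=
  ⟨⟨_, 0, h.D_algebraMap_ne_zero (F := F)⟩⟩

/-- Every nonzero element is a unit times a power of `t` (given that non-multiples of `t` are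
units). -/
theorem exists_eq_unit_mul_pow (h : TaylorData K t) (hunit : ∀ f : A, ¬ t ∣ f → IsUnit f)
    {f : A} (hf : f ≠ 0) :
    ∃ (n : ℕ) (u : A), IsUnit u ∧ f = u * t ^ n := by
  classical
  have hex : ∃ n : ℕ, ¬ t ^ n ∣ f := by
    by_contra hcon
    push_neg at hcon
    exact hf (h.krull f hcon)
  have hmin : ∀ m : ℕ, m < Nat.find hex → ¬ ¬ t ^ m ∣ f := fun m hm => Nat.find_min hex hm
  have hspec := Nat.find_spec hex
  set N := Nat.find hex with hN
  have hN0 : N ≠ 0 := by
    intro h0
    rw [h0, pow_zero] at hspec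
    exact hspec (one_dvd _)
  obtain ⟨m, hm⟩ := Nat.exists_eq_succ_of_ne_zero hN0
  have hdvd : t ^ m ∣ f := by
    exact not_not.mp (hmin m (by omega))
  obtain ⟨u, rfl⟩ := hdvd
  refine ⟨m, u, hunit u ?_, mul_comm _ _⟩
  rintro ⟨w, rfl⟩
  apply hspec
  rw [hm, pow_succ]
  exact ⟨w, by ring⟩

/-- MAIN (abstract): if `df = g • dt` with `f ∈ A` then `g ∈ A` and its Taylor expansion is the
derivative of that of `f`. -/
theorem exists_taylor_derivative (hunit : ∀ f : A, ¬ t ∣ f → IsUnit f) (f : A) (g : F)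
    (hg : D K F (algebraMap A F f) = g • D K F (algebraMap A F t)) :
    ∃ g' : A, algebraMap A F g' = g ∧ h.taylor g' = PowerSeries.derivative K (h.taylor f) := by
  obtain ⟨a, s, hs, rfl⟩ := IsFractionRing.div_surjective (A := A) g
  have hs0 : s ≠ 0 := nonZeroDivisors.ne_zero hs
  have hsF : algebraMap A F s ≠ 0 := by
    rwa [Ne, map_eq_zero_iff _ (IsFractionRing.injective A F)]
  have hrel : algebraMap A F s • D K F (algebraMap A F f)
      = algebraMap A F a • D K F (algebraMap A F t) := by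
    rw [hg, smul_smul, mul_div_cancel₀ _ hsF]
  have key := h.taylor_mul_derivative_eq (F := F) f s a hrel
  obtain ⟨n, u, hu, rfl⟩ := h.exists_eq_unit_mul_pow hunit hs0
  have hdvd : t ^ n ∣ a := by
    rw [← h.X_pow_dvd_taylor_iff, ← key, map_mul, map_pow, taylor_self]
    exact ⟨h.taylor u * PowerSeries.derivative K (h.taylor f), by ring⟩
  obtain ⟨a', rfl⟩ := hdvd
  obtain ⟨u', rfl⟩ := hu
  refine ⟨a' * ((u'⁻¹ : Aˣ) : A), ?_, ?_⟩
  · rw [eq_div_iff hsF, ← map_mul]
    congr 1
    rw [mul_assoc, ← mul_assoc ((u'⁻¹ : Aˣ) : A), Units.inv_mul, one_mul, mul_comm]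
  · have hts : h.taylor ((u' : A) * t ^ n) ≠ 0 := fun h0 => hs0 (h.taylor_eq_zero_iff.mp h0)
    apply mul_left_cancel₀ hts
    rw [key, ← map_mul]
    congr 1
    rw [mul_comm ((u' : A) * t ^ n), mul_assoc, ← mul_assoc ((u'⁻¹ : Aˣ) : A), Units.inv_mul,
      one_mul, mul_comm]

end TaylorData

/-- Orders of derivatives of power series in characteristic zero. -/
theorem X_pow_dvd_derivative [CharZero K] {P : K⟦X⟧} {m : ℕ} (hm : (PowerSeries.X : K⟦X⟧) ^ (m + 1) ∣ P) :
    (PowerSeries.X : K⟦X⟧) ^ m ∣ PowerSeries.derivative K P := by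
  rw [PowerSeries.X_pow_dvd_iff] at hm ⊢
  intro k hk
  rw [PowerSeries.coeff_derivative, hm (k + 1) (by omega), zero_mul]

theorem not_X_pow_dvd_derivative [CharZero K] {P : K⟦X⟧} {m : ℕ}
    (hm : ¬ (PowerSeries.X : K⟦X⟧) ^ (m + 2) ∣ P) (hm' : (PowerSeries.X : K⟦X⟧) ^ (m + 1) ∣ P) :
    ¬ (PowerSeries.X : K⟦X⟧) ^ (m + 1) ∣ PowerSeries.derivative K P := by
  rw [PowerSeries.X_pow_dvd_iff] at hm hm' ⊢
  push_neg at hm
  obtain ⟨k, hk, hk0⟩ := hm
  have hkm : k = m + 1 := by
    by_contra hne
    exact hk0 (hm' k (by omega))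
  subst hkm
  intro hcon
  have := hcon m (by omega)
  rw [PowerSeries.coeff_derivative] at this
  rcases mul_eq_zero.mp this with h1 | h1
  · exact hk0 h1
  · have : ((m + 1 : ℕ) : K) = 0 := by push_cast; exact h1
    exact (Nat.cast_ne_zero.mpr (Nat.succ_ne_zero m)) this

end Fermat.Agent.S24.LocalDiff
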