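/-
S24 / local differential calculus, part 2 (helper21): in characteristic zero a `K`-derivation of a
field `F` algebraic over `K(t)` which kills `t` is zero; hence `Ω[F⁄K] = F · dt`.
-/
import Mathlib

set_option autoImplicit false

open KaehlerDifferential IntermediateField

namespace Fermat.Agent.S24.LocalDiff

variable {K F : Type*} [Field K] [Field F] [Algebra K F] [CharZero K]

section Vanish

variable {M : Type*} [AddCommGroup M] [Module K M] [Module F M] [IsScalarTower K F M]

/-- A derivation killing `t` kills `K(t)`. -/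
theorem derivation_apply_eq_zero_of_mem_adjoin (δ : Derivation K F M) {t : F} (ht : δ t = 0)
    {x : F} (hx : x ∈ K⟮t⟯) : δ x = 0 := by
  obtain ⟨r, s, rfl⟩ := (mem_adjoin_simple_iff K x).mp hx
  rw [Derivation.leibniz_div, Derivation.map_aeval, Derivation.map_aeval, ht]
  simp

/-- A derivation killing the subfield `E` behaves on `E`-polynomial expressions in `y` like the
formal derivative. -/
theorem derivation_aeval_of_vanish (δ : Derivation K F M) (E : IntermediateField K F)
    (hE : ∀ x ∈ E, δ x = 0) (y : F) (q : Polynomial E) :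
    δ (Polynomial.aeval y q) = Polynomial.aeval y (Polynomial.derivative q) • δ y := by
  induction q using Polynomial.induction_on with
  | C a =>
    rw [Polynomial.aeval_C, Polynomial.derivative_C, map_zero, zero_smul]
    exact hE _ a.2
  | add p q hp hq => rw [map_add, map_add, hp, hq, Polynomial.derivative_add, map_add, add_smul]
  | monomial n a _ =>
    have ha : δ (algebraMap (↥E) F a) = 0 := hE _ a.2
    rw [map_mul, Polynomial.aeval_C, map_pow, Polynomial.aeval_X, Derivation.leibniz,
      ha, smul_zero, add_zero, Derivation.leibniz_pow, Polynomial.derivative_C_mul_X_pow]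
    simp only [map_mul, Polynomial.aeval_C, map_pow, Polynomial.aeval_X, map_natCast,
      Nat.add_sub_cancel, smul_smul]
    rw [← Nat.cast_smul_eq_nsmul F, smul_smul, smul_smul]

/-- In characteristic zero, a `K`-derivation of `F` (algebraic over `K(t)`) killing `t` is zero. -/
theorem derivation_apply_eq_zero (δ : Derivation K F M) {t : F}
    (halg : Algebra.IsAlgebraic K⟮t⟯ F) (ht : δ t = 0) (y : F) : δ y = 0 := by
  have hE : ∀ x ∈ K⟮t⟯, δ x = 0 := fun x hx => derivation_apply_eq_zero_of_mem_adjoin δ ht hx
  have hy : IsAlgebraic K⟮t⟯ y := halg.isAlgebraic y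
  have hint : IsIntegral K⟮t⟯ y := hy.isIntegral
  have hsep : (minpoly K⟮t⟯ y).Separable := (minpoly.irreducible hint).separable
  have h0 := derivation_aeval_of_vanish δ K⟮t⟯ hE y (minpoly K⟮t⟯ y)
  rw [minpoly.aeval, map_zero] at h0
  have hne : Polynomial.aeval y (Polynomial.derivative (minpoly K⟮t⟯ y)) ≠ 0 :=
    hsep.aeval_derivative_ne_zero (minpoly.aeval _ _)
  exact (smul_eq_zero.mp h0.symm).resolve_left hne

end Vanish

/-- `Ω[F⁄K]` is spanned by `dt` when `F` is algebraic over `K(t)` (characteristic zero). -/
theorem span_D_eq_top {t : F} (halg : Algebra.IsAlgebraic K⟮t⟯ F) :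
    Submodule.span F {D K F t} = ⊤ := by
  set N : Submodule F Ω[F⁄K] := Submodule.span F {D K F t} with hN
  let δ : Derivation K F (Ω[F⁄K] ⧸ N) := (N.mkQ).compDer (D K F)
  have ht : δ t = 0 := by
    show N.mkQ (D K F t) = 0
    rw [Submodule.mkQ_apply, Submodule.Quotient.mk_eq_zero]
    exact Submodule.subset_span rfl
  have hall : ∀ y : F, D K F y ∈ N := by
    intro y
    have := derivation_apply_eq_zero δ halg ht y
    have h2 : N.mkQ (D K F y) = 0 := this
    rwa [Submodule.mkQ_apply, Submodule.Quotient.mk_eq_zero] at h2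
  rw [eq_top_iff, ← KaehlerDifferential.span_range_derivation K F, Submodule.span_le]
  rintro _ ⟨y, rfl⟩
  exact hall y

theorem exists_eq_smul_D {t : F} (halg : Algebra.IsAlgebraic K⟮t⟯ F) (ω : Ω[F⁄K]) :
    ∃ g : F, ω = g • D K F t := by
  have hω : ω ∈ (⊤ : Submodule F Ω[F⁄K]) := Submodule.mem_top
  rw [← span_D_eq_top halg, Submodule.mem_span_singleton] at hω
  exact hω.imp fun _ hf => hf.symm

end Fermat.Agent.S24.LocalDiff
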