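/-
S24 / local differential calculus (helper21): exchange lemma in transcendence degree one.
If `F` is algebraic over `K(x)` and `t ∈ F` is transcendental over `K`, then `F` is algebraic
over `K(t)`.
-/
import Mathlib

set_option autoImplicit false

open IntermediateField Cardinal

namespace Fermat.Agent.S24.LocalDiff

variable {K F : Type*} [Field K] [Field F] [Algebra K F]

open scoped IntermediateField.algebraAdjoinAdjoin in
theorem isAlgebraic_algebraAdjoin_of_isAlgebraic_adjoin {x : F}
    (hx : Algebra.IsAlgebraic K⟮x⟯ F) : Algebra.IsAlgebraic (Algebra.adjoin K {x}) F :=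
  Algebra.IsAlgebraic.trans (Algebra.adjoin K {x}) K⟮x⟯ F

theorem isAlgebraic_adjoin_simple_of_transcendental {x t : F}
    (hx : Algebra.IsAlgebraic K⟮x⟯ F) (ht : Transcendental K t) :
    Algebra.IsAlgebraic K⟮t⟯ F := by
  haveI := isAlgebraic_algebraAdjoin_of_isAlgebraic_adjoin hx
  have hle : Algebra.trdeg K F ≤ 1 := by
    have := Algebra.IsAlgebraic.trdeg_le_cardinalMk K ({x} : Set F)
    simpa using this
  have hind : AlgebraicIndependent K (fun _ : Unit => t) :=
    algebraicIndependent_unique_type_iff.mpr ht
  have hb : IsTranscendenceBasis K (fun _ : Unit => t) :=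
    hind.isTranscendenceBasis_of_lift_trdeg_le_of_finite (by simpa using hle)
  have h := hb.isAlgebraic_field
  have hr : Set.range (fun _ : Unit => t) = {t} := Set.range_const
  rwa [hr] at h

end Fermat.Agent.S24.LocalDiff
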